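import Mathlib

/-!
# Transcendence degree bounds (S26, blocks D1 and F3)
-/

set_option autoImplicit false

universe u

open IntermediateField Cardinal

namespace Fermat.Agent.AVFin

section

variable {k L : Type u} [Field k] [Field L] [Algebra k L]

open scoped IntermediateField.algebraAdjoinAdjoin in
theorem trdeg_adjoin_le (s : Set L) : Algebra.trdeg k (adjoin k s) ≤ #s := by
  have h1 : Algebra.trdeg k (Algebra.adjoin k s) +
      Algebra.trdeg (Algebra.adjoin k s) (adjoin k s) = Algebra.trdeg k (adjoin k s) :=
    trdeg_add_eq (R := k) (S := Algebra.adjoin k s) (A := adjoin k s)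
  have h2 : Algebra.trdeg (Algebra.adjoin k s) (adjoin k s) = 0 := trdeg_eq_zero
  rw [← h1, h2, add_zero]
  have h3 : Function.Surjective ((MvPolynomial.aeval (fun x : s => (x : L))).codRestrict
      (Algebra.adjoin k s) (fun p => by
        have := Algebra.adjoin_range_eq_range_aeval k (fun x : s => (x : L))
        rw [Subtype.range_coe] at this
        rw [this]
        exact ⟨p, rfl⟩) : MvPolynomial s k →ₐ[k] Algebra.adjoin k s) := by
    rintro ⟨y, hy⟩
    have := Algebra.adjoin_range_eq_range_aeval k (fun x : s => (x : L))
    rw [Subtype.range_coe] at this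
    rw [this] at hy
    obtain ⟨p, hp⟩ := hy
    exact ⟨p, Subtype.ext hp⟩
  refine (trdeg_le_of_surjective _ h3).trans ?_
  rw [MvPolynomial.trdeg_of_isDomain, Cardinal.lift_id]

theorem trdeg_eq_of_algebraic (k A B : Type u) [Field k] [Field A] [Field B] [Algebra k A]
    [Algebra A B] [Algebra k B] [IsScalarTower k A B] [Algebra.IsAlgebraic A B] :
    Algebra.trdeg k B = Algebra.trdeg k A := by
  rw [← trdeg_add_eq (R := k) (S := A) (A := B), trdeg_eq_zero (R := A) (A := B), add_zero]

theorem trdeg_le_of_algebraic (s : Set L) (M : IntermediateField k L)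
    (h : ∀ x ∈ M, IsAlgebraic (adjoin k s) x) : Algebra.trdeg k M ≤ #s := by
  let N := (algebraicClosure (adjoin k s) L)
  let j : M →ₐ[k] N := (M.val).codRestrict ((N.restrictScalars k).toSubalgebra) (fun x => by
    have : (x : L) ∈ N := by
      rw [mem_algebraicClosure_iff]
      exact h x x.2
    exact this)
  have hj : Function.Injective j := fun x y hxy => by
    have := congrArg (fun z : N => (z : L)) hxy
    exact Subtype.ext this
  refine (trdeg_le_of_injective j hj).trans ?_
  have h1 := trdeg_eq_of_algebraic k (adjoin k s) N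
  exact h1.le.trans (trdeg_adjoin_le s)

end

end Fermat.Agent.AVFin
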