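import Mathlib
import Fermat.Agent.AVn.Stmts
import Fermat.Agent.AVb.Fd
import Fermat.Agent.AVFin.Tr

/-!
# Lemma Z (S26, block D1)
-/

set_option autoImplicit false

universe u

open IntermediateField Cardinal

namespace Fermat.Agent.AVFin

open Fermat.Agent.AVn

variable {K : Type u} [Field K] {g : ℕ} (A : AVar K g)

section dim

variable {k κ : Type u} [Field k] [Field κ] [Algebra K k] [Algebra k κ] [Algebra K κ]
  [IsScalarTower K k κ]

/-- dimension inequality: if `ȳ` is defined over `T` with `trdeg_k T ≤ 1` and `ā` is generic over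
`k`, then `K(ȳ - ā)` has transcendence degree `≥ g - 1`. -/
theorem dim_ineq (T : IntermediateField k κ) (hT : Algebra.trdeg k T ≤ 1)
    (y a : A.Pt κ) (hy : ∀ x ∈ A.fd y, x ∈ T)
    (ha : Algebra.trdeg k (adjoin k (A.fd a : Set κ)) = g) :
    (g : Cardinal) ≤ Algebra.trdeg K (A.fd (y - a)) + 1 := by
  classical
  obtain ⟨s, hs⟩ := exists_isTranscendenceBasis k T
  obtain ⟨t, ht⟩ := exists_isTranscendenceBasis K (A.fd (y - a))
  let s' : Set κ := Subtype.val '' s
  let t' : Set κ := Subtype.val '' t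
  have hcs : #s' ≤ 1 := (Cardinal.mk_image_le).trans (hs.cardinalMk_eq_trdeg.le.trans hT)
  have hct : #t' ≤ Algebra.trdeg K (A.fd (y - a)) :=
    (Cardinal.mk_image_le).trans ht.cardinalMk_eq_trdeg.le
  -- everything is algebraic over `k(s', t')`
  let N := (algebraicClosure (adjoin k (s' ∪ t')) κ)
  have hsub : ∀ z ∈ adjoin k (s' ∪ t'), z ∈ N := fun z hz =>
    N.algebraMap_mem ⟨z, hz⟩
  have hkN : ∀ c : k, algebraMap k κ c ∈ N := fun c =>
    hsub _ ((adjoin k (s' ∪ t')).algebraMap_mem c)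
  have hTN : ∀ x ∈ T, x ∈ N := by
    intro x hx
    rw [mem_algebraicClosure_iff]
    have h1 : IsAlgebraic (Algebra.adjoin k s) (⟨x, hx⟩ : T) := by
      have := hs.isAlgebraic
      rw [Subtype.range_coe] at this
      exact this.isAlgebraic _
    let f : Algebra.adjoin k s →+* adjoin k (s' ∪ t') :=
      ((T.val.comp (Algebra.adjoin k s).val).codRestrict
        (adjoin k (s' ∪ t')).toSubalgebra (fun z => by
          have hz : (z : T) ∈ Algebra.adjoin k s := z.2
          have h2 : ((z : T) : κ) ∈ (Algebra.adjoin k s).map T.val := ⟨z, hz, rfl⟩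
          rw [AlgHom.map_adjoin] at h2
          have h3 : Algebra.adjoin k (⇑T.val '' s) ≤ (adjoin k (s' ∪ t')).toSubalgebra := by
            rw [Algebra.adjoin_le_iff]
            rintro _ ⟨w, hw, rfl⟩
            exact subset_adjoin k _ (Or.inl ⟨w, hw, rfl⟩)
          exact h3 h2)).toRingHom
    refine h1.ringHom_of_comp_eq f (T.val : T →+* κ) (fun a b hab => ?_) ?_
    · apply Subtype.ext
      apply Subtype.ext
      exact congrArg (fun z : adjoin k (s' ∪ t') => (z : κ)) hab
    · ext z; rfl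
  have hZN : ∀ x ∈ A.fd (y - a), x ∈ N := by
    intro x hx
    rw [mem_algebraicClosure_iff]
    have h1 : IsAlgebraic (Algebra.adjoin K t) (⟨x, hx⟩ : A.fd (y - a)) := by
      have := ht.isAlgebraic
      rw [Subtype.range_coe] at this
      exact this.isAlgebraic _
    let f : Algebra.adjoin K t →+* adjoin k (s' ∪ t') :=
      (((A.fd (y - a)).val.comp (Algebra.adjoin K t).val).codRestrict
        ((adjoin k (s' ∪ t')).restrictScalars K).toSubalgebra (fun z => by
          have hz : (z : A.fd (y - a)) ∈ Algebra.adjoin K t := z.2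
          have h2 : ((z : A.fd (y - a)) : κ) ∈ (Algebra.adjoin K t).map (A.fd (y - a)).val :=
            ⟨z, hz, rfl⟩
          rw [AlgHom.map_adjoin] at h2
          have h3 : Algebra.adjoin K (⇑(A.fd (y - a)).val '' t) ≤
              ((adjoin k (s' ∪ t')).restrictScalars K).toSubalgebra := by
            rw [Algebra.adjoin_le_iff]
            rintro _ ⟨w, hw, rfl⟩
            exact subset_adjoin k _ (Or.inr ⟨w, hw, rfl⟩)
          exact h3 h2)).toRingHom
    refine h1.ringHom_of_comp_eq f ((A.fd (y - a)).val : A.fd (y - a) →+* κ)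
      (fun a b hab => ?_) ?_
    · apply Subtype.ext
      apply Subtype.ext
      exact congrArg (fun z : adjoin k (s' ∪ t') => (z : κ)) hab
    · ext z; rfl
  have haN : ∀ x ∈ A.fd a, x ∈ N := by
    have h1 : A.fd a ≤ (N.restrictScalars k).restrictScalars K := by
      have h2 : a = y - (y - a) := by abel
      rw [h2]
      refine (A.fd_sub_le' (k := (N.restrictScalars k).restrictScalars K) ?_ ?_)
      · exact fun x hx => hTN x (hy x hx)
      · exact fun x hx => hZN x hx
    exact fun x hx => h1 hx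
  have h3 : Algebra.trdeg k (adjoin k (A.fd a : Set κ)) ≤ #(s' ∪ t' : Set κ) := by
    refine trdeg_le_of_algebraic (s' ∪ t') _ fun x hx => ?_
    rw [← mem_algebraicClosure_iff]
    have h4 : adjoin k (A.fd a : Set κ) ≤ N.restrictScalars k := by
      rw [adjoin_le_iff]
      exact fun z hz => haN z hz
    exact h4 hx
  rw [ha] at h3
  calc (g : Cardinal) ≤ #(s' ∪ t' : Set κ) := h3
    _ ≤ #s' + #t' := Cardinal.mk_union_le _ _
    _ ≤ 1 + Algebra.trdeg K (A.fd (y - a)) := add_le_add hcs hct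
    _ = _ := add_comm _ _

end dim

/-- **Lemma Z** -/
theorem lemmaZ {k Ω κ' : Type u} [Field k] [Field Ω] [Field κ'] [Algebra K k] [Algebra k Ω]
    [Algebra K Ω] [IsScalarTower K k Ω] [Algebra A.F Ω] [IsScalarTower K A.F Ω]
    [Algebra K κ'] [Algebra k κ'] [IsScalarTower K k κ'] [Algebra A.F κ'] [IsScalarTower K A.F κ']
    (htr : Algebra.trdeg k (adjoin k (Set.range (algebraMap A.F Ω))) = g)
    (V : ValuationSubring Ω) (f : A.F) (y : A.Pt Ω)
    (hV : ∀ x ∈ A.kaf k Ω f y, x ∈ V)
    (hΦ : Transcendental (adjoin k (Set.range (algebraMap A.F Ω))) (A.ev (y - A.gpt Ω) f))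
    [Algebra K V] [IsScalarTower K V Ω]
    (r : V →ₐ[K] κ') [IsLocalHom r]
    (hrk : ∀ (c : k) (hc : algebraMap k Ω c ∈ V), r ⟨_, hc⟩ = algebraMap k κ' c)
    (hrF : ∀ (c : A.F) (hc : algebraMap A.F Ω c ∈ V), r ⟨_, hc⟩ = algebraMap A.F κ' c)
    (yV : A.Pt V) (hyV : A.map (IsScalarTower.toAlgHom K V Ω) yV = y)
    (T : IntermediateField k κ') (hT : Algebra.trdeg k T ≤ 1)
    (hyT : ∀ x ∈ A.fd (A.map r yV), x ∈ T)
    (halg : ∀ x ∈ T, IsAlgebraic (adjoin k (Set.range (algebraMap A.F κ'))) x) : False := by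
  classical
  set kap := A.kaf k Ω f y with hkap
  have hkaF : ∀ c : A.F, algebraMap A.F Ω c ∈ kap := fun c =>
    subset_adjoin k _ (Or.inr ⟨c, rfl⟩)
  have hΦk : A.ev (y - A.gpt Ω) f ∈ kap := subset_adjoin k _ (Or.inl rfl)
  have hVF : ∀ c : A.F, algebraMap A.F Ω c ∈ V := fun c => hV _ (hkaF c)
  -- residue map on `kap`
  let ρ : kap →ₐ[k] κ' :=
    { toFun := fun x => r ⟨x, hV x x.2⟩
      map_one' := map_one r
      map_mul' := fun x y => map_mul r ⟨x, hV x x.2⟩ ⟨y, hV y y.2⟩
      map_zero' := map_zero r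
      map_add' := fun x y => map_add r ⟨x, hV x x.2⟩ ⟨y, hV y y.2⟩
      commutes' := fun c => hrk c _ }
  have hρ : ∀ x : kap, ρ x = r ⟨x, hV x x.2⟩ := fun _ => rfl
  -- the subfield `k(a)` in `kap`
  let S : Set kap := Set.range (fun c : A.F => (⟨algebraMap A.F Ω c, hkaF c⟩ : kap))
  let ka : IntermediateField k kap := adjoin k S
  have hSΩ : (kap.val '' S) = Set.range (algebraMap A.F Ω) := by
    ext z; constructor
    · rintro ⟨_, ⟨c, rfl⟩, rfl⟩; exact ⟨c, rfl⟩
    · rintro ⟨c, rfl⟩; exact ⟨_, ⟨c, rfl⟩, rfl⟩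
  have hSκ : (ρ '' S) = Set.range (algebraMap A.F κ') := by
    ext z; constructor
    · rintro ⟨_, ⟨c, rfl⟩, rfl⟩; exact ⟨c, (hrF c _).symm⟩
    · rintro ⟨c, rfl⟩; exact ⟨_, ⟨c, rfl⟩, hrF c _⟩
  have hmapΩ : ka.map kap.val = adjoin k (Set.range (algebraMap A.F Ω)) := by
    rw [adjoin_map, hSΩ]
  have hmapκ : ka.map ρ = adjoin k (Set.range (algebraMap A.F κ')) := by
    rw [adjoin_map, hSκ]
  -- transcendence degree
  have htr' : Algebra.trdeg k (adjoin k (Set.range (algebraMap A.F κ'))) = g := by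
    rw [← htr, ← hmapΩ, ← hmapκ]
    exact ((ka.equivMap ρ).symm.trans (ka.equivMap kap.val)).trdeg_eq
  -- transcendence of the residue of `Φ`
  let Φ : kap := ⟨A.ev (y - A.gpt Ω) f, hΦk⟩
  have hΦ1 : Transcendental ka Φ := by
    rw [← hmapΩ] at hΦ
    intro hal
    apply hΦ
    exact hal.ringHom_of_comp_eq ((ka.equivMap kap.val).toAlgHom : ka →+* ka.map kap.val)
      (kap.val : kap →+* Ω) (ka.equivMap kap.val).injective (by ext z; rfl)
  have hΦ2 : Transcendental (adjoin k (Set.range (algebraMap A.F κ'))) (ρ Φ) := by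
    rw [← hmapκ]
    intro hal
    apply hΦ1
    exact hal.of_ringHom_of_comp_eq ((ka.equivMap ρ).toAlgHom : ka →+* ka.map ρ)
      (ρ : kap →+* κ') (ka.equivMap ρ).surjective ρ.injective (by ext z; rfl)
  -- the points
  let jF : A.F →ₐ[K] V :=
    { toFun := fun c => ⟨algebraMap A.F Ω c, hVF c⟩
      map_one' := Subtype.ext (map_one _)
      map_mul' := fun x y => Subtype.ext (map_mul _ x y)
      map_zero' := Subtype.ext (map_zero _)
      map_add' := fun x y => Subtype.ext (map_add _ x y)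
      commutes' := fun c => Subtype.ext (by
        have h1 : algebraMap A.F Ω (algebraMap K A.F c) = algebraMap K Ω c :=
          (IsScalarTower.algebraMap_apply K A.F Ω c).symm
        have h2 : ((algebraMap K V c : V) : Ω) = algebraMap K Ω c :=
          (IsScalarTower.algebraMap_apply K V Ω c).symm
        rw [h2]; exact h1) }
  let aV : A.Pt V := A.map jF A.gen
  have haΩ : A.map (IsScalarTower.toAlgHom K V Ω) aV = A.gpt Ω := by
    rw [← A.map_comp]; rfl
  have haκ : A.map r aV = A.map (IsScalarTower.toAlgHom K A.F κ') A.gen := by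
    rw [← A.map_comp]
    congr 1
    ext c
    exact hrF c _
  have hfda : ((A.fd (A.map r aV) : IntermediateField K κ') : Set κ') =
      Set.range (algebraMap A.F κ') := by
    rw [haκ, A.fd_map_gen]
    ext z; constructor
    · rintro ⟨c, rfl⟩; exact ⟨c, rfl⟩
    · rintro ⟨c, rfl⟩; exact ⟨c, rfl⟩
  let zV : A.Pt V := yV - aV
  have hzΩ : A.map (IsScalarTower.toAlgHom K V Ω) zV = y - A.gpt Ω := by
    rw [A.map_sub, hyV, haΩ]
  have hzκ : A.map r zV = A.map r yV - A.map r aV := A.map_sub _ _ _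
  have hdim : (g : Cardinal) ≤ Algebra.trdeg K (A.fd (A.map r zV)) + 1 := by
    rw [hzκ]
    exact dim_ineq A T hT (A.map r yV) (A.map r aV) hyT (by rw [hfda]; exact htr')
  -- `fd z̄` is algebraic over `k(ā)`
  let N := (algebraicClosure (adjoin k (Set.range (algebraMap A.F κ'))) κ')
  have hzalg : ∀ x ∈ A.fd (A.map r zV), IsAlgebraic
      (adjoin k (Set.range (algebraMap A.F κ'))) x := by
    have h1 : A.fd (A.map r zV) ≤ (N.restrictScalars k).restrictScalars K := by
      rw [hzκ]
      refine (A.fd_sub_le' (k := (N.restrictScalars k).restrictScalars K) ?_ ?_)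
      · intro x hx
        have : IsAlgebraic (adjoin k (Set.range (algebraMap A.F κ'))) x := halg x (hyT x hx)
        rw [← mem_algebraicClosure_iff] at this
        exact this
      · intro x hx
        have h2 : x ∈ adjoin k (Set.range (algebraMap A.F κ')) := by
          apply subset_adjoin k
          rw [← hfda]; exact hx
        exact N.algebraMap_mem ⟨x, h2⟩
    intro x hx
    rw [← mem_algebraicClosure_iff]
    exact h1 hx
  -- the generic point `φ` of `z`
  have hex : ∃ φ : A.F →ₐ[K] Ω, A.map φ A.gen = y - A.gpt Ω := by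
    by_contra hno
    apply hΦ
    have : A.ev (y - A.gpt Ω) f = 0 := by
      rw [AVar.ev, dif_neg hno]
    rw [this]
    exact isAlgebraic_zero
  obtain ⟨φ, hφ⟩ := hex
  have hΦφ : A.ev (y - A.gpt Ω) f = φ f := by
    rw [← hφ, A.ev_eq]
  rcases A.cod1 (O := V) (L := Ω) (κ := κ') r zV φ (by rw [hφ, hzΩ]) hdim f with
    ⟨v, hv, hrv⟩ | ⟨v, hv, hrv⟩
  · apply hΦ2
    have : ρ Φ = r v := by
      rw [hρ]
      congr 1
      apply Subtype.ext
      rw [← hΦφ] at hv
      exact hv.symm
    rw [this]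
    exact hzalg _ hrv
  · apply hΦ2
    have hv' : (⟨((Φ⁻¹ : kap) : Ω), hV _ (Φ⁻¹ : kap).2⟩ : V) = v := by
      apply Subtype.ext
      rw [← hΦφ] at hv
      exact hv.symm
    have h1 : ρ Φ⁻¹ = r v := by
      rw [hρ, hv']
    have h2 : ρ Φ = (r v)⁻¹ := by
      rw [← h1, map_inv₀, inv_inv]
    rw [h2]
    exact (hzalg _ hrv).inv

end Fermat.Agent.AVFin
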