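import Mathlib

/-!
# Linear disjointness and degrees (S26, block F3)
-/

set_option autoImplicit false

universe u v

open IntermediateField

namespace Fermat.Agent.AVFin

variable {K : Type u} [Field K] {Ω : Type v} [Field Ω] [Algebra K Ω]

/-- `B[Y] = span_B Y`. -/
theorem mem_sup_iff_div (B Y : IntermediateField K Ω) (c : Ω) (hc : c ∈ B ⊔ Y) :
    ∃ r ∈ Submodule.span B (Y : Set Ω), ∃ s ∈ Submodule.span B (Y : Set Ω), s ≠ 0 ∧ c = r / s := by
  have h1 : B ⊔ Y = (adjoin B (Y : Set Ω)).restrictScalars K := by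
    rw [IntermediateField.restrictScalars_adjoin]
    rw [Set.union_comm]
    apply le_antisymm
    · refine sup_le ?_ ?_
      · exact fun z hz => subset_adjoin K _ (Or.inr hz)
      · exact fun z hz => subset_adjoin K _ (Or.inl hz)
    · rw [adjoin_le_iff]
      rintro z (hz | hz)
      · exact (le_sup_right : Y ≤ B ⊔ Y) hz
      · exact (le_sup_left : B ≤ B ⊔ Y) hz
  rw [h1] at hc
  have hc' : c ∈ adjoin B (Y : Set Ω) := hc
  rw [mem_adjoin_iff_div] at hc'
  obtain ⟨r, hr, s, hs, e⟩ := hc'
  have hcl : (Submonoid.closure (Y : Set Ω) : Set Ω) = (Y : Set Ω) := by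
    have := Submonoid.closure_eq (Y.toSubalgebra.toSubsemiring.toSubmonoid)
    exact congrArg (fun z : Submonoid Ω => (z : Set Ω)) this
  have key : ∀ z : Ω, z ∈ Algebra.adjoin B (Y : Set Ω) → z ∈ Submodule.span B (Y : Set Ω) := by
    intro z hz
    have h2 := Algebra.adjoin_eq_span B (Y : Set Ω)
    rw [hcl] at h2
    rw [← h2]
    exact hz
  by_cases hs0 : s = 0
  · refine ⟨0, Submodule.zero_mem _, 1, Submodule.subset_span (one_mem Y), one_ne_zero, ?_⟩
    rw [e, hs0]; simp
  · exact ⟨r, key r hr, s, key s hs, hs0, e⟩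

/-- `span_B Y` in terms of a `K`-basis of `B`. -/
theorem exists_repr (B Y : IntermediateField K Ω) {J : Type*} (β : Module.Basis J K B) (c : Ω)
    (hc : c ∈ Submodule.span B (Y : Set Ω)) :
    ∃ y : J →₀ Y, c = y.sum fun j t => (β j : Ω) * (t : Ω) := by
  classical
  induction hc using Submodule.span_induction with
  | mem z hz =>
    refine ⟨(β.repr 1).mapRange (fun k => algebraMap K Y k * ⟨z, hz⟩) (by simp), ?_⟩
    rw [Finsupp.sum_mapRange_index (by simp)]
    have h1 : (1 : B) = (β.repr 1).sum fun j k => k • β j := by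
      rw [← Finsupp.linearCombination_apply, β.linearCombination_repr]
    have h2 : (1 : Ω) = (β.repr 1).sum fun j k => k • (β j : Ω) := by
      have := congrArg (fun b : B => (b : Ω)) h1
      simpa [Finsupp.sum] using this
    calc z = 1 * z := (one_mul z).symm
      _ = ((β.repr 1).sum fun j k => k • (β j : Ω)) * z := by rw [← h2]
      _ = _ := by
        rw [Finsupp.sum, Finsupp.sum, Finset.sum_mul]
        refine Finset.sum_congr rfl fun j _ => ?_
        rw [Algebra.smul_def]
        push_cast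
        ring
  | zero => exact ⟨0, by simp⟩
  | add z w _ _ ihz ihw =>
    obtain ⟨y, rfl⟩ := ihz
    obtain ⟨y', rfl⟩ := ihw
    refine ⟨y + y', ?_⟩
    rw [Finsupp.sum_add_index' (by simp) (by intro j a b; push_cast; ring)]
  | smul b z _ ih =>
    obtain ⟨y, rfl⟩ := ih
    -- b * β j = Σ_l m_{jl} β l
    refine ⟨y.sum fun j t => (β.repr (b * β j)).mapRange (fun k => algebraMap K Y k * t)
      (by simp), ?_⟩
    rw [Finsupp.sum_sum_index (by simp) (by intro j a b; push_cast; ring)]
    rw [Finsupp.smul_sum]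
    refine Finsupp.sum_congr fun j _ => ?_
    rw [Finsupp.sum_mapRange_index (by simp)]
    have h1 : b * β j = (β.repr (b * β j)).sum fun l k => k • β l := by
      rw [← Finsupp.linearCombination_apply, β.linearCombination_repr]
    have h2 : (b : Ω) * (β j : Ω) = (β.repr (b * β j)).sum fun l k => k • (β l : Ω) := by
      have := congrArg (fun b : B => (b : Ω)) h1
      simpa [Finsupp.sum] using this
    have h3 : b • ((β j : Ω) * (y j : Ω)) = ((b : Ω) * (β j : Ω)) * (y j : Ω) := by
      rw [Algebra.smul_def, mul_assoc]; rfl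
    rw [h3, h2, Finsupp.sum, Finsupp.sum, Finset.sum_mul]
    refine Finset.sum_congr rfl fun l _ => ?_
    rw [Algebra.smul_def]
    push_cast
    ring

/-- linear independence over `Y` of a family in `X ⊇ Y` persists over `B ⊔ Y` when `B` is
linearly disjoint from `X`. -/
theorem linearIndependent_sup {B X Y : IntermediateField K Ω} (hYX : Y ≤ X)
    (hd : B.LinearDisjoint X) {ι : Type*} (e : ι → Ω) (heX : ∀ i, e i ∈ X)
    (he : LinearIndependent Y e) : LinearIndependent (B ⊔ Y : IntermediateField K Ω) e := by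
  classical
  rw [linearIndependent_iff'] at he ⊢
  intro s c hc i hi
  -- numerators and denominators
  have h1 := fun i => mem_sup_iff_div B Y (c i : Ω) (c i).2
  choose r hr d hd' hd0 hrd using h1
  have hspan_mul : ∀ z w : Ω, z ∈ Submodule.span B (Y : Set Ω) → w ∈ Submodule.span B (Y : Set Ω) →
      z * w ∈ Submodule.span B (Y : Set Ω) := by
    intro z w hz hw
    induction hz using Submodule.span_induction with
    | mem z hz =>
      induction hw using Submodule.span_induction with
      | mem w hw => exact Submodule.subset_span (mul_mem hz hw)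
      | zero => simp
      | add a b _ _ iha ihb => rw [mul_add]; exact Submodule.add_mem _ iha ihb
      | smul a b _ ihb => rw [mul_smul_comm]; exact Submodule.smul_mem _ _ ihb
    | zero => simp
    | add a b _ _ iha ihb => rw [add_mul]; exact Submodule.add_mem _ iha ihb
    | smul a b _ ihb => rw [smul_mul_assoc]; exact Submodule.smul_mem _ _ ihb
  have hspan_prod : ∀ t : Finset ι, (∏ j ∈ t, d j) ∈ Submodule.span B (Y : Set Ω) := by
    intro t
    induction t using Finset.induction_on with
    | empty => simpa using Submodule.subset_span (one_mem Y)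
    | insert a t ha ih => rw [Finset.prod_insert ha]; exact hspan_mul _ _ (hd' a) ih
  have hq : ∀ i ∈ s, (∏ j ∈ s, d j) * (c i : Ω) ∈ Submodule.span B (Y : Set Ω) := by
    intro i hi
    have : (∏ j ∈ s, d j) * (c i : Ω) = (∏ j ∈ s.erase i, d j) * r i := by
      rw [← Finset.prod_erase_mul s d hi, hrd i]
      rw [mul_assoc, mul_div_cancel₀ _ (hd0 i)]
    rw [this]
    exact hspan_mul _ _ (hspan_prod _) (hr i)
  let β : Module.Basis _ K B := Module.Basis.ofVectorSpace K B
  have h2 : ∀ i, ∃ y : _ →₀ Y, i ∈ s →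
      (∏ j ∈ s, d j) * (c i : Ω) = y.sum fun j t => (β j : Ω) * (t : Ω) := by
    intro i
    by_cases hi : i ∈ s
    · obtain ⟨y, hy⟩ := exists_repr B Y β _ (hq i hi)
      exact ⟨y, fun _ => hy⟩
    · exact ⟨0, fun h => absurd h hi⟩
  choose y hy using h2
  -- the vanishing combination over the basis β
  have h3 : ∑ i ∈ s, ((∏ j ∈ s, d j) * (c i : Ω)) * e i = 0 := by
    have h4 : ∑ i ∈ s, (c i : Ω) * e i = 0 := by
      simpa [Algebra.smul_def] using hc
    have h5 : ∑ i ∈ s, ((∏ j ∈ s, d j) * (c i : Ω)) * e i =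
        (∏ j ∈ s, d j) * ∑ i ∈ s, (c i : Ω) * e i := by
      rw [Finset.mul_sum]
      exact Finset.sum_congr rfl fun i _ => by ring
    rw [h5, h4, mul_zero]
  let T := s.biUnion fun i => (y i).support
  have h6 : ∑ j ∈ T, (β j : Ω) * (∑ i ∈ s, ((y i) j : Ω) * e i) = 0 := by
    rw [← h3]
    simp_rw [Finset.mul_sum]
    rw [Finset.sum_comm]
    refine Finset.sum_congr rfl fun i hi => ?_
    rw [hy i hi, Finsupp.sum, Finset.sum_mul]
    symm
    rw [Finset.sum_subset (Finset.subset_biUnion_of_mem (fun i => (y i).support) hi)]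
    · exact Finset.sum_congr rfl fun j _ => by ring
    · intro j _ hj
      rw [Finsupp.notMem_support_iff] at hj
      rw [hj]; simp
  have hβ : LinearIndependent X (B.val ∘ β) := hd.linearIndependent_left β.linearIndependent
  rw [linearIndependent_iff'] at hβ
  have hmem : ∀ j, ∑ i ∈ s, ((y i) j : Ω) * e i ∈ X := fun j =>
    sum_mem fun i _ => mul_mem (hYX ((y i) j).2) (heX i)
  have h7 := hβ T (fun j => ⟨_, hmem j⟩) (by
    have : ∀ j, (⟨_, hmem j⟩ : X) • (B.val ∘ β) j = (β j : Ω) * (∑ i ∈ s, ((y i) j : Ω) * e i) := by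
      intro j
      rw [Algebra.smul_def, mul_comm]; rfl
    simp_rw [this]
    exact h6)
  have h8 : ∀ j ∈ T, (y i) j = 0 := by
    intro j hj
    have h9 := congrArg (fun z : X => (z : Ω)) (h7 j hj)
    have h10 : ∑ i ∈ s, ((y i) j : Ω) * e i = 0 := h9
    exact he s (fun i => (y i) j) (by simpa [Algebra.smul_def] using h10) i hi
  have h11 : (∏ j ∈ s, d j) * (c i : Ω) = 0 := by
    rw [hy i hi, Finsupp.sum]
    refine Finset.sum_eq_zero fun j hj => ?_
    rw [h8 j (Finset.mem_biUnion.mpr ⟨i, hi, hj⟩)]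
    simp
  have h12 : (∏ j ∈ s, d j) ≠ 0 := Finset.prod_ne_zero_iff.mpr fun j _ => hd0 j
  have h13 := (mul_eq_zero.mp h11).resolve_left h12
  exact Subtype.ext h13

theorem relrank_le_sup {B X Y : IntermediateField K Ω} (hYX : Y ≤ X)
    (hd : B.LinearDisjoint X) : relrank Y X ≤ relrank (B ⊔ Y) (B ⊔ X) := by
  have hle : B ⊔ Y ≤ B ⊔ X := sup_le_sup_left hYX B
  rw [relrank_eq_rank_of_le hYX, relrank_eq_rank_of_le hle]
  let b := Module.Basis.ofVectorSpace Y (extendScalars hYX)
  have h1 : LinearIndependent Y (fun i => (b i : Ω)) :=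
    b.linearIndependent.map' ((extendScalars hYX).val.toLinearMap)
      (LinearMap.ker_eq_bot.mpr (extendScalars hYX).val.injective)
  have h2 := linearIndependent_sup hYX hd (fun i => (b i : Ω)) (fun i => (b i).2) h1
  have h3 : LinearIndependent (B ⊔ Y : IntermediateField K Ω)
      (fun i => (⟨(b i : Ω), (le_sup_right : X ≤ B ⊔ X) (b i).2⟩ : extendScalars hle)) := by
    refine LinearIndependent.of_comp (extendScalars hle).val.toLinearMap ?_
    exact h2
  rw [← b.mk_eq_rank'']
  exact h3.cardinal_le_rank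

theorem adjoin_extendScalars {B X Y : IntermediateField K Ω} (hYX : Y ≤ X)
    (hle : B ⊔ Y ≤ B ⊔ X) :
    adjoin (B ⊔ Y : IntermediateField K Ω) (X : Set Ω) = extendScalars hle := by
  apply le_antisymm
  · rw [adjoin_le_iff]
    intro z hz
    exact (le_sup_right : X ≤ B ⊔ X) hz
  · intro z hz
    have h3 : z ∈ B ⊔ X := hz
    have h4 : B ⊔ X ≤ (adjoin (B ⊔ Y : IntermediateField K Ω) (X : Set Ω)).restrictScalars K := by
      refine sup_le ?_ ?_
      · intro w hw
        exact (adjoin (B ⊔ Y : IntermediateField K Ω) (X : Set Ω)).algebraMap_mem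
          ⟨w, (le_sup_left : B ≤ B ⊔ Y) hw⟩
      · intro w hw
        have h5 := subset_adjoin (B ⊔ Y : IntermediateField K Ω) (X : Set Ω)
        exact h5 hw
    exact h4 h3

theorem relrank_sup_le {B X Y : IntermediateField K Ω} (hYX : Y ≤ X)
    (hf : relfinrank Y X ≠ 0) : relrank (B ⊔ Y) (B ⊔ X) ≤ relrank Y X := by
  have hle : B ⊔ Y ≤ B ⊔ X := sup_le_sup_left hYX B
  rw [relrank_eq_rank_of_le hYX, relrank_eq_rank_of_le hle]
  have hfin : FiniteDimensional Y (extendScalars hYX) := by
    rw [relfinrank_eq_finrank_of_le hYX] at hf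
    exact Module.finite_of_finrank_pos (Nat.pos_of_ne_zero hf)
  let _ : Algebra Y (B ⊔ Y : IntermediateField K Ω) :=
    (IntermediateField.inclusion (le_sup_right : Y ≤ B ⊔ Y)).toAlgebra
  have : IsScalarTower Y (B ⊔ Y : IntermediateField K Ω) Ω :=
    IsScalarTower.of_algebraMap_eq fun _ => rfl
  have h1 := adjoin_rank_le_of_isAlgebraic (F := Y) (K := Ω) (B ⊔ Y : IntermediateField K Ω)
    (extendScalars hYX) (Or.inr (Algebra.IsAlgebraic.of_finite Y (extendScalars hYX)))
  have h2 : ((extendScalars hYX : IntermediateField Y Ω) : Set Ω) = (X : Set Ω) := rfl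
  rw [h2, adjoin_extendScalars hYX hle] at h1
  exact h1

/-- base change of a degree along a linearly disjoint field -/
theorem relfinrank_sup_eq {B X Y : IntermediateField K Ω} (hYX : Y ≤ X)
    (hd : B.LinearDisjoint X) : relfinrank (B ⊔ Y) (B ⊔ X) = relfinrank Y X := by
  by_cases hf : relfinrank Y X = 0
  · rw [hf]
    rw [relfinrank_eq_toNat_relrank] at hf ⊢
    rw [Cardinal.toNat_eq_zero] at hf ⊢
    rcases hf with hf | hf
    · exfalso
      rw [relrank_eq_rank_of_le hYX] at hf
      exact (rank_pos (R := Y) (M := extendScalars hYX)).ne' hf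
    · exact Or.inr (hf.trans (relrank_le_sup hYX hd))
  · rw [relfinrank_eq_toNat_relrank, relfinrank_eq_toNat_relrank,
      le_antisymm (relrank_sup_le hYX hf) (relrank_le_sup hYX hd)]

end Fermat.Agent.AVFin
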