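import Mathlib
import Fermat.Agent.AVn.Defs
import Fermat.Agent.AVn.Stmts

/-!
# S26 PLAN kb 66, block F: definitions and statements of F1, F2, F3
-/

set_option autoImplicit false

universe u

open IntermediateField

namespace Fermat.Agent.AVFin

open Fermat.Agent.AVn

variable {K : Type u} [Field K] {g : ℕ} (A : AVar K g) {Ω : Type u} [Field Ω] [Algebra K Ω]

/-- the field generated by a family of points -/
noncomputable def BB {ι : Type} (a : ι → A.Pt Ω) : IntermediateField K Ω := ⨆ i, A.fd (a i)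

/-- `x, a_1, …, a_g` are independent generic points -/
def Indep (x : A.Pt Ω) (a : Fin g → A.Pt Ω) : Prop :=
  Algebra.trdeg K (BB A a ⊔ A.fd x : IntermediateField K Ω) = (g : Cardinal) * ((g : Cardinal) + 1)

/-- `D(n) = K(a)(f_i(n_i x - a_i))_i` -/
noncomputable def DD (x : A.Pt Ω) (a : Fin g → A.Pt Ω) (f : Fin g → A.F) (n : Fin g → ℤ) :
    IntermediateField K Ω :=
  BB A a ⊔ ⨆ i, K⟮A.ev (n i • x - a i) (f i)⟯

/-- `δ(n) = [K(x,a) : D(n)]` -/
noncomputable def delta (x : A.Pt Ω) (a : Fin g → A.Pt Ω) (f : Fin g → A.F) (n : Fin g → ℤ) : ℕ :=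
  relfinrank (DD A x a f n) (BB A a ⊔ A.fd x)

/-- F1 (choice of the `f_i`) -/
def F1Stmt (Ω : Type u) [Field Ω] [Algebra K Ω] : Prop :=
  ∀ (x : A.Pt Ω) (a : Fin g → A.Pt Ω), Indep A x a →
    ∃ f : Fin g → A.F, (∀ i, A.Even (f i)) ∧ delta A x a f (fun _ => 1) ≠ 0

/-- F2 (chain); to be proved from `A.QuadStmt` -/
def F2Stmt (Ω : Type u) [Field Ω] [Algebra K Ω] : Prop :=
  ∀ (x : A.Pt Ω) (a : Fin g → A.Pt Ω), Indep A x a →
    ∀ f : Fin g → A.F, (∀ i, A.Even (f i)) → delta A x a f (fun _ => 1) ≠ 0 →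
    ∀ n : ℕ, 0 < n →
      delta A x a f (fun _ => (n : ℤ)) = n ^ (2 * g) * delta A x a f (fun _ => 1)

/-- F3 (comparison with `[K(x) : K(nx)]`) -/
def F3Stmt (Ω : Type u) [Field Ω] [Algebra K Ω] : Prop :=
  ∀ (x : A.Pt Ω) (a : Fin g → A.Pt Ω), Indep A x a →
    ∀ (f : Fin g → A.F) (n : ℕ), delta A x a f (fun _ => (n : ℤ)) ≠ 0 →
      delta A x a f (fun _ => 1) ≠ 0 →
      Algebra.trdeg K (A.fd (n • x)) = g ∧
      delta A x a f (fun _ => (n : ℤ)) =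
        relfinrank (A.fd (n • x)) (A.fd x) * delta A x a f (fun _ => 1)

/-- conclusion of block F for one `Ω` -/
theorem degree_of {Ω : Type u} [Field Ω] [Algebra K Ω] (h1 : F1Stmt A Ω) (h2 : F2Stmt A Ω)
    (h3 : F3Stmt A Ω) (x : A.Pt Ω) (a : Fin g → A.Pt Ω) (hi : Indep A x a) (n : ℕ) (hn : 0 < n) :
    Algebra.trdeg K (A.fd (n • x)) = g ∧
      relfinrank (A.fd (n • x)) (A.fd x) = n ^ (2 * g) := by
  obtain ⟨f, hf, hd⟩ := h1 x a hi
  have e2 := h2 x a hi f hf hd n hn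
  have hne : delta A x a f (fun _ => (n : ℤ)) ≠ 0 := by
    rw [e2]
    exact mul_ne_zero (pow_ne_zero _ hn.ne') hd
  obtain ⟨ht, e3⟩ := h3 x a hi f n hne hd
  refine ⟨ht, ?_⟩
  rw [e2] at e3
  exact (Nat.eq_of_mul_eq_mul_right (Nat.pos_of_ne_zero hd) e3).symm

end Fermat.Agent.AVFin
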