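import Mathlib
import Fermat.Agent.AVF26.Chain
import Fermat.Agent.AVb.Free

/-!
# Genericity from ranks (S26, block F)
-/

set_option autoImplicit false

universe u

open IntermediateField Cardinal

namespace Fermat.Agent.AVFin

open Fermat.Agent.AVn Fermat.Agent.AVF26

variable {K : Type u} [Field K] [IsAlgClosed K] {g : ℕ} (A : AVar K g) {Ω : Type u} [Field Ω]
  [Algebra K Ω]

/-- a point of the right rank over `k` is generic over `k` -/
theorem gen_of_rk (k : IntermediateField K Ω) (z : A.Pt Ω) (hk : rk K (k : Set Ω) ≠ ⊤)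
    (h : rk K (k : Set Ω) + g ≤ rk K ((k ⊔ A.fd z : IntermediateField K Ω) : Set Ω)) :
    A.Gen k z := by
  have hle : k ≤ k ⊔ A.fd z := le_sup_left
  have h1 := rk_eq_add_trdeg hle
  rw [h1] at h
  have h2 : (g : ℕ∞) ≤ Cardinal.toENat (Algebra.trdeg k (extendScalars hle)) :=
    (ENat.add_le_add_iff_left hk).1 h
  have h3 : (g : Cardinal) ≤ Algebra.trdeg k (extendScalars hle) := by
    rwa [← Cardinal.natCast_le_toENat]
  have h4 : Algebra.trdeg K (A.fd z) ≤ g := A.trdeg_fd_le z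
  have h5 : Algebra.trdeg K (A.fd z) = g :=
    le_antisymm h4 (h3.trans (AVb.trdeg_sup_le k (A.fd z)))
  have h6 : k.LinearDisjoint (A.fd z) := by
    refine AVb.linearDisjoint_of_trdeg_le ?_ (h4.trans h3)
    rw [h5]
    exact Cardinal.natCast_lt_aleph0
  obtain ⟨φ, hφ⟩ := A.exists_ev z h5
  refine ⟨φ, hφ, ?_⟩
  have h7 : A.fd z = φ.fieldRange := by rw [← A.fd_map_gen, hφ]
  exact IntermediateField.LinearDisjoint.of_le_right (A := k) (B := A.fd z) h6 h7.ge

variable (x : A.Pt Ω) (a : Fin g → A.Pt Ω) (hi : Indep A x a)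

theorem rk_BB_le : rk K (BB A a : Set Ω) ≤ ((g * g : ℕ) : ℕ∞) := by
  have h1 := rk_iSup_le Finset.univ (fun j => A.fd (a j)) g fun j => rk_fd_le A (a j)
  rw [Finset.card_univ, Fintype.card_fin] at h1
  have h2 : (⨆ i ∈ Finset.univ, A.fd (a i)) = BB A a := by
    rw [BB]; simp
  rw [h2] at h1
  rw [Nat.cast_mul]
  exact h1

include hi in
/-- `x` is generic over `K(a)` -/
theorem gen_BB : A.Gen (BB A a) x := by
  refine gen_of_rk A _ _ (ne_top_of_le_ne_top (ENat.natCast_ne_top _) (rk_BB_le A a)) ?_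
  rw [rk_top A x a hi]
  refine (add_le_add (rk_BB_le A a) le_rfl).trans_eq ?_
  rw [← Nat.cast_add]
  congr 1

include hi in
/-- `a_i` is generic over `K(x, a_j : j ≠ i)` -/
theorem gen_E0 (i : Fin g) : A.Gen (E0 A x a i) (a i) := by
  refine gen_of_rk A _ _ ?_ ?_
  · rw [rk_E0 A x a i hi]
    exact ENat.natCast_ne_top _
  · rw [E0_sup, rk_top A x a hi, rk_E0 A x a i hi, ← Nat.cast_add]
    exact le_of_eq (congrArg _ (by ring))

/-- **F2** -/
theorem f2 (hE : A.QuadStmt) : F2Stmt A Ω := by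
  intro x a hi f hf hd n hn
  exact delta_const A x a f hi hE (gen_E0 A x a hi) hf hd n hn.ne'

end Fermat.Agent.AVFin
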