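import Mathlib
import Fermat.Agent.AVFin.GenRk

/-!
# Existence of independent generic points (S26, block F)
-/

set_option autoImplicit false

universe u

open IntermediateField Cardinal

namespace Fermat.Agent.AVFin

open Fermat.Agent.AVn Fermat.Agent.AVF26

section

variable {K F Ω : Type u} [Field K] [Field F] [Field Ω] [Algebra K F] [Algebra K Ω]
  [IsAlgClosed Ω] {ι : Type} {t : ι → F} (ht : IsTranscendenceBasis K t) {X : ι → Ω}
  (hX : AlgebraicIndependent K X)

include ht hX in
/-- extension of `t i ↦ X i` to the whole field -/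
theorem exists_hom_of_basis : ∃ φ : F →ₐ[K] Ω, ∀ i, φ (t i) = X i := by
  let R := Algebra.adjoin K (Set.range t)
  let e : MvPolynomial ι K ≃ₐ[K] R := ht.1.aevalEquiv
  let j : R →ₐ[K] Ω := (MvPolynomial.aeval X).comp e.symm.toAlgHom
  have hj : Function.Injective j := by
    intro a b hab
    have h1 : e.symm a = e.symm b := hX hab
    exact e.symm.injective h1
  let _ : Algebra R Ω := j.toRingHom.toAlgebra
  have htow : IsScalarTower K R Ω := IsScalarTower.of_algebraMap_eq fun c => (j.commutes c).symm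
  have hf : FaithfulSMul R Ω := (faithfulSMul_iff_algebraMap_injective R Ω).mpr hj
  have halg : Algebra.IsAlgebraic R F := ht.isAlgebraic
  let φ : F →ₐ[R] Ω := IsAlgClosed.lift
  refine ⟨φ.restrictScalars K, fun i => ?_⟩
  have h1 : φ (algebraMap R F ⟨t i, Algebra.subset_adjoin ⟨i, rfl⟩⟩) =
      algebraMap R Ω ⟨t i, Algebra.subset_adjoin ⟨i, rfl⟩⟩ := φ.commutes _
  have h2 : e (MvPolynomial.X i) = ⟨t i, Algebra.subset_adjoin ⟨i, rfl⟩⟩ := by
    apply Subtype.ext
    have := ht.1.algebraMap_aevalEquiv (MvPolynomial.X i)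
    rw [MvPolynomial.aeval_X] at this
    exact this
  have h3 : algebraMap R Ω ⟨t i, Algebra.subset_adjoin ⟨i, rfl⟩⟩ = X i := by
    rw [← h2]
    change (MvPolynomial.aeval X) (e.symm (e (MvPolynomial.X i))) = X i
    rw [e.symm_apply_apply, MvPolynomial.aeval_X]
  exact h1.trans h3

end

theorem exists_big (K : Type u) [Field K] (J : Type) :
    ∃ (Ω : Type u) (_ : Field Ω) (_ : IsAlgClosed Ω) (_ : Algebra K Ω) (X : J → Ω),
      AlgebraicIndependent K X := by
  have h1 : AlgebraicIndependent K (MvPolynomial.X : J → MvPolynomial J K) :=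
    MvPolynomial.algebraicIndependent_X J K
  have h2 := h1.map' (f := IsScalarTower.toAlgHom K (MvPolynomial J K)
    (FractionRing (MvPolynomial J K)))
    (IsFractionRing.injective (MvPolynomial J K) (FractionRing (MvPolynomial J K)))
  have h3 := h2.map' (f := IsScalarTower.toAlgHom K (FractionRing (MvPolynomial J K))
    (AlgebraicClosure (FractionRing (MvPolynomial J K))))
    (algebraMap (FractionRing (MvPolynomial J K))
      (AlgebraicClosure (FractionRing (MvPolynomial J K)))).injective
  exact ⟨AlgebraicClosure (FractionRing (MvPolynomial J K)), inferInstance, inferInstance,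
    inferInstance, _, h3⟩

theorem exists_indep {K : Type u} [Field K] [IsAlgClosed K] {g : ℕ} (A : AVar K g) :
    ∃ (Ω : Type u) (_ : Field Ω) (_ : IsAlgClosed Ω) (_ : Algebra K Ω) (φ : A.F →ₐ[K] Ω)
      (a : Fin g → A.Pt Ω), Indep A (A.map φ A.gen) a := by
  obtain ⟨s, hs⟩ := exists_isTranscendenceBasis K A.F
  have hcard : #s = g := by rw [hs.cardinalMk_eq_trdeg, A.trdeg_F]
  obtain ⟨e⟩ : Nonempty (Fin g ≃ s) := by
    rw [← Cardinal.lift_mk_eq'.{0, u}, hcard]
    simp
  have ht : IsTranscendenceBasis K (fun i : Fin g => ((e i : s) : A.F)) :=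
    hs.comp_equiv e
  let J := Option (Fin g) × Fin g
  obtain ⟨Ω, iF, iC, iA, X, hX⟩ := exists_big K J
  have hφ : ∀ o : Option (Fin g), ∃ φ : A.F →ₐ[K] Ω, ∀ i, φ (e i : s) = X (o, i) := by
    intro o
    exact exists_hom_of_basis ht (hX.comp (fun i : Fin g => (o, i)) (fun a b hab =>
      congrArg Prod.snd hab))
  choose φ hφ using hφ
  let a : Fin g → A.Pt Ω := fun i => A.map (φ (some i)) A.gen
  refine ⟨Ω, inferInstance, inferInstance, inferInstance, φ none, a, ?_⟩
  set M : IntermediateField K Ω := BB A a ⊔ A.fd (A.map (φ none) A.gen) with hM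
  change Algebra.trdeg K M = _
  have hmem : ∀ j, X j ∈ M := by
    rintro ⟨o, i⟩
    cases o with
    | none =>
      refine (le_sup_right : A.fd (A.map (φ none) A.gen) ≤ M) ?_
      rw [A.fd_map_gen, ← hφ none i]
      exact ⟨_, rfl⟩
    | some l =>
      refine (le_sup_left : BB A a ≤ M) ?_
      refine (le_iSup (fun i => A.fd (a i)) l) ?_
      change X (some l, i) ∈ A.fd (A.map (φ (some l)) A.gen)
      rw [A.fd_map_gen, ← hφ (some l) i]
      exact ⟨_, rfl⟩
  apply le_antisymm
  · have h1 : rk K (M : Set Ω) ≤ ((g * (g + 1) : ℕ) : ℕ∞) := by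
      refine (rk_sup_le _ _).trans ((add_le_add (rk_BB_le A a) (rk_fd_le A _)).trans_eq ?_)
      rw [← Nat.cast_add]
      exact congrArg _ (by ring)
    rw [rk_eq_trdeg, Cardinal.toENat_le_natCast] at h1
    refine h1.trans_eq ?_
    push_cast
    rfl
  · have h2 : AlgebraicIndependent K (fun j => (⟨X j, hmem j⟩ : M)) := by
      refine AlgebraicIndependent.of_comp M.val ?_
      exact hX
    have h3 := h2.lift_cardinalMk_le_trdeg
    have h4 : Cardinal.lift.{u} #J = (g : Cardinal) * ((g : Cardinal) + 1) := by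
      simp [J, Cardinal.mk_fintype, Fintype.card_prod, Fintype.card_option]
      ring
    rw [h4] at h3
    simpa using h3

end Fermat.Agent.AVFin
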