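import Mathlib
import Fermat.Agent.AVFin.LD
import Fermat.Agent.AVFin.GenRk
import Fermat.Agent.AVE.Quad

/-!
# S26, block F3: `δ(n,…,n) = [K(x) : K(nx)] δ(1,…,1)`
-/

set_option autoImplicit false

universe u

open IntermediateField Cardinal
open scoped TensorProduct

namespace Fermat.Agent.AVFin

open Fermat.Agent.AVn Fermat.Agent.AVF26

section transport

variable {K F Ω : Type u} [Field K] [Field F] [Field Ω] [Algebra K F] [Algebra K Ω]

theorem productMap_injective {B : IntermediateField K Ω} (φ : F →ₐ[K] Ω)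
    (hφ : B.LinearDisjoint φ.fieldRange) :
    Function.Injective (Algebra.TensorProduct.productMap B.val φ) := by
  have h1 := (Subalgebra.linearDisjoint_iff_injective).mp (linearDisjoint_iff'.1 hφ)
  let e : B ⊗[K] F ≃ₐ[K] B ⊗[K] φ.fieldRange :=
    Algebra.TensorProduct.congr AlgEquiv.refl (AlgEquiv.ofInjectiveField φ)
  have h2 : ∀ z, Algebra.TensorProduct.productMap B.val φ z =
      (B.toSubalgebra.mulMap φ.fieldRange.toSubalgebra) (e z) := by
    intro z
    have : Algebra.TensorProduct.productMap B.val φ =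
      ((B.toSubalgebra.mulMap φ.fieldRange.toSubalgebra).comp e.toAlgHom) := by
      ext b
      · change (b : Ω) * φ 1 = (b : Ω) * ((AlgEquiv.ofInjectiveField φ 1 : φ.fieldRange) : Ω)
        rw [map_one, map_one]; rfl
      · rename_i b
        change ((1 : B) : Ω) * φ b = ((1 : B) : Ω) * ((AlgEquiv.ofInjectiveField φ b : φ.fieldRange) : Ω)
        rfl
    rw [this]; rfl
  intro a b hab
  rw [h2, h2] at hab
  exact e.injective (h1 hab)

theorem exists_lift_frac {D : Type u} [CommRing D] [Algebra K D] (μ ν : D →ₐ[K] Ω)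
    (hμ : Function.Injective μ) (hν : Function.Injective ν) (E : IntermediateField K Ω)
    (hμE : ∀ z : D, μ z ∈ E) (hE : ∀ z ∈ E, ∃ a b : D, z = μ a / μ b) :
    ∃ θ : E →ₐ[K] Ω, ∀ d : D, θ ⟨μ d, hμE d⟩ = ν d := by
  let μ' : D →ₐ[K] E := μ.codRestrict E.toSubalgebra hμE
  have hμ' : Function.Injective μ' := fun a b hab =>
    hμ (congrArg (fun z : E => (z : Ω)) hab)
  let _ : Algebra D E := μ'.toRingHom.toAlgebra
  have htow : IsScalarTower K D E := IsScalarTower.of_algebraMap_eq fun c => (μ'.commutes c).symm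
  have hdom : IsDomain D := hμ.isDomain μ.toRingHom
  have hfaith : FaithfulSMul D E := (faithfulSMul_iff_algebraMap_injective D E).mpr hμ'
  have hfrac : IsFractionRing D E := by
    refine IsFractionRing.of_field D E fun z => ?_
    obtain ⟨a, b, hz⟩ := hE z z.2
    exact ⟨a, b, Subtype.ext hz⟩
  let θ : E →ₐ[K] Ω := IsFractionRing.liftAlgHom (A := D) (K := E) hν
  exact ⟨θ, fun d => IsFractionRing.lift_algebraMap (A := D) (K := E) (g := ν.toRingHom) hν d⟩

/-- conjugacy of embeddings linearly disjoint from `B` -/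
theorem exists_transport {B : IntermediateField K Ω} (φ ψ : F →ₐ[K] Ω)
    (hφ : B.LinearDisjoint φ.fieldRange) (hψ : B.LinearDisjoint ψ.fieldRange) :
    ∃ θ : (B ⊔ φ.fieldRange : IntermediateField K Ω) →ₐ[K] Ω,
      (∀ (b : Ω) (hb : b ∈ B), θ ⟨b, (le_sup_left : B ≤ B ⊔ φ.fieldRange) hb⟩ = b) ∧
      ∀ f : F, θ ⟨φ f, (le_sup_right : φ.fieldRange ≤ B ⊔ φ.fieldRange) ⟨f, rfl⟩⟩ = ψ f := by
  classical
  set E : IntermediateField K Ω := B ⊔ φ.fieldRange with hE
  have hμE : ∀ z : B ⊗[K] F, Algebra.TensorProduct.productMap B.val φ z ∈ E := by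
    intro z
    induction z using TensorProduct.induction_on with
    | zero => rw [map_zero]; exact zero_mem _
    | tmul b f =>
      rw [Algebra.TensorProduct.productMap_apply_tmul]
      exact mul_mem ((le_sup_left : B ≤ E) b.2)
        ((le_sup_right : φ.fieldRange ≤ E) ⟨f, rfl⟩)
    | add a b ha hb => rw [map_add]; exact add_mem ha hb
  have hrange : ∀ r ∈ Submodule.span B ((φ.fieldRange : IntermediateField K Ω) : Set Ω),
      ∃ z : B ⊗[K] F, Algebra.TensorProduct.productMap B.val φ z = r := by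
    intro r hr
    induction hr using Submodule.span_induction with
    | mem z hz =>
      obtain ⟨f, rfl⟩ := hz
      exact ⟨(1 : B) ⊗ₜ f, by
        rw [Algebra.TensorProduct.productMap_apply_tmul]
        simp⟩
    | zero => exact ⟨0, map_zero _⟩
    | add a b _ _ iha ihb =>
      obtain ⟨a', rfl⟩ := iha
      obtain ⟨b', rfl⟩ := ihb
      exact ⟨a' + b', map_add _ _ _⟩
    | smul c a _ iha =>
      obtain ⟨a', rfl⟩ := iha
      refine ⟨(c ⊗ₜ 1) * a', ?_⟩
      rw [map_mul, Algebra.TensorProduct.productMap_apply_tmul, map_one, mul_one,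
        Algebra.smul_def]
      rfl
  obtain ⟨θ, hθ⟩ := exists_lift_frac (Algebra.TensorProduct.productMap B.val φ)
    (Algebra.TensorProduct.productMap B.val ψ) (productMap_injective φ hφ)
    (productMap_injective ψ hψ) E hμE (fun z hz => by
      obtain ⟨r, hr, s, hs, _, hz⟩ := mem_sup_iff_div B φ.fieldRange z hz
      obtain ⟨a, ha⟩ := hrange r hr
      obtain ⟨b, hb⟩ := hrange s hs
      exact ⟨a, b, by rw [hz, ← ha, ← hb]⟩)
  have key : ∀ (d : B ⊗[K] F) (x : Ω) (hx : x ∈ E),
      Algebra.TensorProduct.productMap B.val φ d = x →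
      θ ⟨x, hx⟩ = Algebra.TensorProduct.productMap B.val ψ d := by
    intro d x hx hd
    subst hd
    exact hθ d
  refine ⟨θ, fun b hb => ?_, fun f => ?_⟩
  · rw [key ((⟨b, hb⟩ : B) ⊗ₜ 1) b _ (by
      rw [Algebra.TensorProduct.productMap_apply_tmul, map_one, mul_one]; rfl),
      Algebra.TensorProduct.productMap_apply_tmul, map_one, mul_one]
    rfl
  · rw [key ((1 : B) ⊗ₜ f) (φ f) _ (by
      rw [Algebra.TensorProduct.productMap_apply_tmul, map_one, one_mul]),
      Algebra.TensorProduct.productMap_apply_tmul, map_one, one_mul]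

end transport

variable {K : Type u} [Field K] {g : ℕ} (A : AVar K g)

section natural

variable {E Ω : Type u} [Field E] [Field Ω] [Algebra K E] [Algebra K Ω] (θ : E →ₐ[K] Ω)

theorem BB_map {ι : Type} (a : ι → A.Pt E) :
    (BB A a).map θ = BB A (fun i => A.map θ (a i)) := by
  rw [BB, BB, IntermediateField.map_iSup]
  exact iSup_congr fun i => (A.fd_map θ (a i)).symm

theorem DD_map (x : A.Pt E) (a : Fin g → A.Pt E) (f : Fin g → A.F) (n : Fin g → ℤ) :
    (DD A x a f n).map θ = DD A (A.map θ x) (fun i => A.map θ (a i)) f n := by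
  rw [DD, DD, IntermediateField.map_sup, BB_map, IntermediateField.map_iSup]
  congr 1
  refine iSup_congr fun i => ?_
  rw [adjoin_map, Set.image_singleton, ← A.map_zsmul, ← A.map_sub, AVE.ev_map_aux]

theorem delta_map (x : A.Pt E) (a : Fin g → A.Pt E) (f : Fin g → A.F) (n : Fin g → ℤ) :
    delta A (A.map θ x) (fun i => A.map θ (a i)) f n = delta A x a f n := by
  rw [delta, delta, ← DD_map, ← BB_map, A.fd_map, ← IntermediateField.map_sup,
    relfinrank_map_map]

end natural

variable {Ω : Type u} [Field Ω] [Algebra K Ω]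

/-- `δ` only depends on the isomorphism class of `(x, a)`, `x` generic over `K(a)` -/
theorem delta_congr (a : Fin g → A.Pt Ω) {x y : A.Pt Ω} (hx : A.Gen (BB A a) x)
    (hy : A.Gen (BB A a) y) (f : Fin g → A.F) (n : Fin g → ℤ) :
    delta A x a f n = delta A y a f n := by
  obtain ⟨φ, hφx, hφ⟩ := hx
  obtain ⟨ψ, hψy, hψ⟩ := hy
  set E : IntermediateField K Ω := BB A a ⊔ φ.fieldRange with hE
  obtain ⟨θ, hθB, hθF⟩ : ∃ θ : E →ₐ[K] Ω,
      (∀ (b : Ω) (hb : b ∈ BB A a), θ ⟨b, (le_sup_left : BB A a ≤ BB A a ⊔ φ.fieldRange) hb⟩ = b) ∧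
      ∀ f : A.F, θ ⟨φ f, (le_sup_right : φ.fieldRange ≤ BB A a ⊔ φ.fieldRange) ⟨f, rfl⟩⟩ = ψ f :=
    exists_transport φ ψ hφ hψ
  have hle : BB A a ≤ E := le_sup_left
  let φ' : A.F →ₐ[K] E := φ.codRestrict E.toSubalgebra
    (fun f => (le_sup_right : φ.fieldRange ≤ E) ⟨f, rfl⟩)
  let x' : A.Pt E := A.map φ' A.gen
  have ha : ∀ i, ∃ a' : A.Pt E, A.map E.val a' = a i := fun i =>
    A.exists_fd (a i) ((le_iSup (fun i => A.fd (a i)) i).trans hle)
  choose a' ha' using ha
  have hx' : A.map E.val x' = x := by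
    rw [← A.map_comp, ← hφx]
    congr 1
  have hy' : A.map θ x' = y := by
    rw [← A.map_comp, ← hψy]
    congr 1
    ext f
    exact hθF f
  have haθ : ∀ i, A.map θ (a' i) = a i := by
    intro i
    rw [← ha' i]
    refine A.map_congr fun z hz => ?_
    have h1 : (z : Ω) ∈ A.fd (a i) := by
      rw [← ha' i, A.fd_map]
      exact ⟨z, hz, rfl⟩
    exact hθB z ((le_iSup (fun i => A.fd (a i)) i) h1)
  have h1 := delta_map A E.val x' a' f n
  have h2 := delta_map A θ x' a' f n
  rw [hx', funext ha'] at h1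
  rw [hy', funext haθ] at h2
  rw [h1, h2]

theorem DD_nsmul (x : A.Pt Ω) (a : Fin g → A.Pt Ω) (f : Fin g → A.F) (n : ℕ) :
    DD A x a f (fun _ => (n : ℤ)) = DD A (n • x) a f (fun _ => 1) := by
  rw [DD, DD]
  congr 1
  refine iSup_congr fun i => ?_
  rw [natCast_zsmul, one_zsmul]

theorem isAlgebraic_of_relfinrank_ne_zero {K Ω : Type*} [Field K] [Field Ω] [Algebra K Ω]
    {A B : IntermediateField K Ω} (h : A ≤ B) (hne : relfinrank A B ≠ 0) :
    ∀ b ∈ B, IsAlgebraic A b := by
  intro b hb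
  rw [relfinrank_eq_finrank_of_le h] at hne
  have h3 : Module.Finite A (extendScalars h) :=
    Module.finite_of_finrank_pos (Nat.pos_of_ne_zero hne)
  have h4 := (Algebra.IsAlgebraic.of_finite A (extendScalars h)).isAlgebraic ⟨b, hb⟩
  exact h4.algHom (IsScalarTower.toAlgHom A (extendScalars h) Ω)

/-- **F3** -/
theorem f3 [IsAlgClosed K] : F3Stmt A Ω := by
  intro x a hi f n hn h1
  have hle : BB A a ⊔ A.fd (n • x) ≤ BB A a ⊔ A.fd x :=
    sup_le_sup_left (A.fd_nsmul_le n x) _
  have hD : DD A x a f (fun _ => (n : ℤ)) ≤ BB A a ⊔ A.fd (n • x) := by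
    rw [DD_nsmul]
    exact DD_le A (n • x) a f _
  -- `n x` is generic
  have halg : ∀ b ∈ BB A a ⊔ A.fd x, IsAlgebraic (BB A a ⊔ A.fd (n • x) : IntermediateField K Ω) b := by
    refine isAlgebraic_of_relfinrank_ne_zero hle fun h0 => hn ?_
    rw [delta, ← relfinrank_mul_relfinrank hD hle, h0, mul_zero]
  have hrk := rk_eq_of_isAlgebraic hle halg
  rw [rk_top A x a hi] at hrk
  have hgx : A.Gen (BB A a) x := gen_BB A x a hi
  have hgn : A.Gen (BB A a) (n • x) := by
    refine gen_of_rk A _ _ (ne_top_of_le_ne_top (ENat.natCast_ne_top _) (rk_BB_le A a)) ?_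
    rw [← hrk]
    refine (add_le_add (rk_BB_le A a) le_rfl).trans_eq ?_
    rw [← Nat.cast_add]
    exact congrArg _ (by ring)
  refine ⟨?_, ?_⟩
  · obtain ⟨φ, hφ, -⟩ := hgn
    rw [← hφ, A.fd_map_gen, ← A.trdeg_F]
    exact (AlgEquiv.ofInjectiveField φ).symm.trdeg_eq
  · have h2 : delta A x a f (fun _ => (n : ℤ)) =
        delta A (n • x) a f (fun _ => 1) *
          relfinrank (BB A a ⊔ A.fd (n • x)) (BB A a ⊔ A.fd x) := by
      rw [delta, delta, ← DD_nsmul]
      exact (relfinrank_mul_relfinrank hD hle).symm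
    have h3 : (BB A a).LinearDisjoint (A.fd x) := by
      obtain ⟨φ, hφ, hld⟩ := hgx
      refine hld.of_le_right ?_
      rw [← hφ, A.fd_map_gen]
    rw [h2, relfinrank_sup_eq (A.fd_nsmul_le n x) h3, delta_congr A a hgn hgx, mul_comm]

end Fermat.Agent.AVFin
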