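import Mathlib
import Fermat.Agent.AVFin.F3
import Fermat.Agent.AVFin.Exists
import Fermat.Agent.AVZ.F1

/-!
# S26, block F: the degree statement from the quadraticity statement
-/

set_option autoImplicit false

universe u

open IntermediateField Cardinal

namespace Fermat.Agent.AVFin

open Fermat.Agent.AVn Fermat.Agent.AVF26

/-- **block F** (all of F1, F2, F3): `[F : [n]^* F] = n ^ (2 g)` from the quadraticity of
heights. -/
theorem degStmt {K : Type u} [Field K] [IsAlgClosed K] {g : ℕ} (A : AVar K g)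
    (hE : A.QuadStmt) : A.DegStmt := by
  intro n hn
  obtain ⟨Ω, iF, iC, iA, φ, a, hi⟩ := exists_indep A
  obtain ⟨ht, hd⟩ := degree_of A (AVZ.f1 A) (f2 A hE) (f3 A) (A.map φ A.gen) a hi n hn
  have h1 : n • A.map φ A.gen = A.map φ (n • A.gen) := (A.map_nsmul φ n A.gen).symm
  rw [h1, A.fd_map] at ht hd
  have h2 : Algebra.trdeg K (A.fd (n • A.gen)) = g := by
    rw [← ht]
    exact ((A.fd (n • A.gen)).equivMap φ).trdeg_eq
  obtain ⟨β, hβ⟩ := A.exists_ev _ h2
  refine ⟨β, hβ, ?_⟩
  have h3 : A.fd (n • A.gen) = β.fieldRange := by rw [← hβ, A.fd_map_gen]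
  have h4 : φ.fieldRange = IntermediateField.map φ ⊤ := AlgHom.fieldRange_eq_map φ
  rw [h3, A.fd_map_gen, h4, relfinrank_map_map, relfinrank_top_right] at hd
  exact hd

end Fermat.Agent.AVFin
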